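import Mathlib

/-!
# Heights and finite extensions of number fields  (helper409, piece ABS(1) of S17 tower H)

Main result: for number fields `K ⊆ L` and a finite tuple `x : ι → K`,

    Height.mulHeight (fun i => algebraMap K L (x i)) = Height.mulHeight x ^ Module.finrank K L

(`mulHeight_algebraMap`), and the logarithmic version `logHeight_algebraMap`.

Proof: the finite part of the height of an integral tuple is the inverse of the absolute norm of
the ideal it generates (`NumberField.absNorm_mul_finprod_finitePlace_eq_one`) and
`absNorm (I 𝓞_L) = absNorm I ^ [L:K]`; the infinite part is a product over complex embeddings and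
every embedding of `K` has exactly `[L:K]` extensions to `L`.
-/

set_option autoImplicit false

namespace Fermat.Agent.Lib.AbsHeight.H409

open NumberField Height

section Embeddings

variable {K : Type*} [Field K] [NumberField K]

/-- A product over infinite places with multiplicities is a product over complex embeddings. -/
lemma prod_pow_mult_eq_prod_embeddings (f : InfinitePlace K → ℝ) :
    ∏ v : InfinitePlace K, f v ^ v.mult = ∏ φ : K →+* ℂ, f (InfinitePlace.mk φ) := by
  classical
  rw [← Finset.prod_fiberwise (s := (Finset.univ : Finset (K →+* ℂ)))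
    (g := fun φ => InfinitePlace.mk φ) (f := fun φ => f (InfinitePlace.mk φ))]
  refine Finset.prod_congr rfl fun v _ => ?_
  rw [Finset.prod_congr rfl (g := fun _ => f v) (fun φ hφ => by
    rw [(Finset.mem_filter.mp hφ).2]), Finset.prod_const, InfinitePlace.card_filter_mk_eq]

variable {L : Type*} [Field L] [NumberField L] [Algebra K L]

/-- The extensions of a complex embedding `φ` of `K` to `L` are the `K`-algebra homomorphisms
`L → ℂ` for the algebra structure given by `φ`. -/
noncomputable def extEquiv (φ : K →+* ℂ) :
    letI := φ.toAlgebra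
    (L →ₐ[K] ℂ) ≃ {ψ : L →+* ℂ // ψ.comp (algebraMap K L) = φ} :=
  letI := φ.toAlgebra
  { toFun := fun f => ⟨f.toRingHom, by
      ext x
      exact f.commutes x⟩
    invFun := fun ψ =>
      { ψ.1 with
        commutes' := fun x => by
          have h : ψ.1 (algebraMap K L x) = φ x := congrArg (fun g : K →+* ℂ => g x) ψ.2
          exact h }
    left_inv := fun f => by
      ext x
      rfl
    right_inv := fun ψ => by
      ext x
      rfl }

/-- Every complex embedding of `K` has exactly `[L : K]` extensions to `L`. -/
lemma card_extensions (φ : K →+* ℂ) :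
    Nat.card {ψ : L →+* ℂ // ψ.comp (algebraMap K L) = φ} = Module.finrank K L := by
  let _ := φ.toAlgebra
  rw [← Nat.card_congr (extEquiv (L := L) φ), Nat.card_eq_fintype_card]
  exact AlgHom.card K L ℂ

/-- A product over the embeddings of `L` of a function of the restriction to `K`. -/
lemma prod_embeddings_comp (h : (K →+* ℂ) → ℝ) :
    ∏ ψ : L →+* ℂ, h (ψ.comp (algebraMap K L)) =
      ∏ φ : K →+* ℂ, h φ ^ Module.finrank K L := by
  classical
  rw [← Finset.prod_fiberwise (s := (Finset.univ : Finset (L →+* ℂ)))
    (g := fun ψ => ψ.comp (algebraMap K L)) (f := fun ψ => h (ψ.comp (algebraMap K L)))]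
  refine Finset.prod_congr rfl fun φ _ => ?_
  rw [Finset.prod_congr rfl (g := fun _ => h φ) (fun ψ hψ => by
    rw [(Finset.mem_filter.mp hψ).2]), Finset.prod_const]
  congr 1
  rw [← card_extensions (L := L) φ, Nat.card_eq_fintype_card, Fintype.card_subtype]

end Embeddings

section Main

variable {K L : Type*} [Field K] [NumberField K] [Field L] [NumberField L] [Algebra K L]
variable {ι : Type*} [Finite ι]

omit [Finite ι] in
/-- The archimedean part of the height under a finite extension. -/
lemma infinitePart_algebraMap (x : ι → K) :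
    ∏ w : InfinitePlace L, (⨆ i, w (algebraMap K L (x i))) ^ w.mult =
      (∏ v : InfinitePlace K, (⨆ i, v (x i)) ^ v.mult) ^ Module.finrank K L := by
  rw [prod_pow_mult_eq_prod_embeddings (fun w => ⨆ i, w (algebraMap K L (x i))),
    prod_pow_mult_eq_prod_embeddings (fun v => ⨆ i, v (x i)), ← Finset.prod_pow,
    ← prod_embeddings_comp (L := L) (fun φ => ⨆ i, (InfinitePlace.mk φ) (x i))]
  rfl

/-- The nonarchimedean part of the height of an integral tuple under a finite extension. -/
lemma finitePart_algebraMap_int (a : ι → 𝓞 K) (ha : a ≠ 0) :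
    ∏ᶠ w : FinitePlace L, ⨆ i, w (algebraMap K L (a i : K)) =
      (∏ᶠ v : FinitePlace K, ⨆ i, v (a i : K)) ^ Module.finrank K L := by
  have hK := absNorm_mul_finprod_finitePlace_eq_one ha
  set b : ι → 𝓞 L := fun i => algebraMap (𝓞 K) (𝓞 L) (a i) with hbdef
  have hb : b ≠ 0 := by
    obtain ⟨i, hi⟩ := Function.ne_iff.mp ha
    refine Function.ne_iff.mpr ⟨i, ?_⟩
    simp only [hbdef, Pi.zero_apply] at hi ⊢
    exact (map_ne_zero_iff _ (FaithfulSMul.algebraMap_injective (𝓞 K) (𝓞 L))).mpr hi
  have hL := absNorm_mul_finprod_finitePlace_eq_one hb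
  have hspan : Ideal.span (Set.range b) =
      (Ideal.span (Set.range a)).map (algebraMap (𝓞 K) (𝓞 L)) := by
    rw [Ideal.map_span, ← Set.range_comp]
    rfl
  rw [hspan, Ideal.absNorm_algebraMap, ← IsFractionRing.finrank_eq (𝓞 K) K (𝓞 L) L] at hL
  have hcoe : ∀ i, ((b i : 𝓞 L) : L) = algebraMap K L (a i : K) := fun i => rfl
  simp only [hcoe] at hL
  set N : ℝ := ((Ideal.absNorm (Ideal.span (Set.range a)) : ℕ) : ℝ) with hN
  have hN0 : N ≠ 0 := by
    intro h0
    rw [h0, zero_mul] at hK
    exact zero_ne_one hK
  have hFK : (∏ᶠ v : FinitePlace K, ⨆ i, v (a i : K)) = N⁻¹ :=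
    eq_inv_of_mul_eq_one_right hK
  have hFL : (∏ᶠ w : FinitePlace L, ⨆ i, w (algebraMap K L (a i : K))) =
      (N ^ Module.finrank K L)⁻¹ := by
    refine eq_inv_of_mul_eq_one_right ?_
    rw [← hL]
    push_cast
    rfl
  rw [hFL, hFK, inv_pow]

/-- **Heights and finite extensions**: for number fields `K ⊆ L`, the multiplicative height over
`L` of a tuple with entries in `K` is the `[L : K]`-th power of its height over `K`. -/
theorem mulHeight_algebraMap (x : ι → K) :
    mulHeight (fun i => algebraMap K L (x i)) = mulHeight x ^ Module.finrank K L := by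
  by_cases hx : x = 0
  · subst hx
    have : (fun i : ι => algebraMap K L ((0 : ι → K) i)) = 0 := by
      ext i
      simp
    rw [this, mulHeight_zero, mulHeight_zero, one_pow]
  cases nonempty_fintype ι
  obtain ⟨d, hd⟩ := IsLocalization.exist_integer_multiples (nonZeroDivisors (𝓞 K))
    (Finset.univ : Finset ι) x
  choose a ha using fun i => hd i (Finset.mem_univ i)
  have hd0 : (algebraMap (𝓞 K) K (d : 𝓞 K)) ≠ 0 := by
    have := nonZeroDivisors.coe_ne_zero d
    exact (map_ne_zero_iff _ (FaithfulSMul.algebraMap_injective (𝓞 K) K)).mpr this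
  have hax : (fun i => (a i : K)) = (algebraMap (𝓞 K) K (d : 𝓞 K)) • x := by
    ext i
    rw [Pi.smul_apply, smul_eq_mul]
    have := ha i
    rw [Algebra.smul_def] at this
    exact this
  have ha0 : a ≠ 0 := by
    intro h0
    apply hx
    have h1 : (algebraMap (𝓞 K) K (d : 𝓞 K)) • x = 0 := by
      rw [← hax, h0]
      ext i
      simp
    exact (smul_eq_zero.mp h1).resolve_left hd0
  have hK : mulHeight x = mulHeight (fun i => (a i : K)) := by
    rw [hax, mulHeight_smul_eq_mulHeight _ hd0]
  have hL : mulHeight (fun i => algebraMap K L (x i)) =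
      mulHeight (fun i => algebraMap K L (a i : K)) := by
    have : (fun i => algebraMap K L (a i : K)) =
        (algebraMap K L (algebraMap (𝓞 K) K (d : 𝓞 K))) • fun i => algebraMap K L (x i) := by
      ext i
      have := congrFun hax i
      simp only [Pi.smul_apply, smul_eq_mul] at this ⊢
      rw [this, map_mul]
    rw [this, mulHeight_smul_eq_mulHeight _ ((map_ne_zero _).mpr hd0)]
  have haK : (fun i => (a i : K)) ≠ 0 := by
    intro h0
    apply ha0
    ext i
    have := congrFun h0 i
    simpa using this
  have haL : (fun i => algebraMap K L (a i : K)) ≠ 0 := by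
    intro h0
    apply haK
    ext i
    have := congrFun h0 i
    simpa using this
  rw [hL, hK, NumberField.mulHeight_eq haL, NumberField.mulHeight_eq haK, mul_pow,
    infinitePart_algebraMap, finitePart_algebraMap_int a ha0]

/-- Logarithmic version of `mulHeight_algebraMap`. -/
theorem logHeight_algebraMap (x : ι → K) :
    logHeight (fun i => algebraMap K L (x i)) = Module.finrank K L * logHeight x := by
  rw [logHeight_eq_log_mulHeight, logHeight_eq_log_mulHeight, mulHeight_algebraMap,
    Real.log_pow]

end Main

end Fermat.Agent.Lib.AbsHeight.H409
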